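/-
S56, block (G2): the global Euler-Poincare characteristic (as an inequality), CONTRACTS.

Notation: `ρ : Representation (ZMod p) GQ A` finite, `dtw p ρ = ρ^*(1)` on `Module.Dual`,
`minusPart ρ` = the `c = -1` eigenspace of complex conjugation, `plusPart ρ` the `c = 1` eigenspace.
All cohomology is in the relative model of `Fermat/Agent/PT/Coh` (`H^i (LS S) V ρ`).
-/
import Fermat.Agent.PT.Duality.Global
import Fermat.Agent.PT.Coh.Dict
import Fermat.Prelude.Def_GaloisRep_ComplexConjugation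

set_option autoImplicit false

open ExtCitation Module Fermat.Agent.PT

noncomputable section

namespace Fermat.Agent.S56.G2

variable (p : ℕ) [Fact p.Prime]

/-- `ρ' = ρ^*(1)`. -/
abbrev dtw {A : Type*} [AddCommGroup A] [Module (ZMod p) A] (ρ : Representation (ZMod p) GQ A) :
    Representation (ZMod p) GQ (Module.Dual (ZMod p) A) := ρ.dual.twist (cycloChar p)

variable {p}

/-- the `c = -1` eigenspace of complex conjugation. -/
def minusPart {A : Type*} [AddCommGroup A] [Module (ZMod p) A] (ρ : Representation (ZMod p) GQ A) :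
    Submodule (ZMod p) A := LinearMap.ker (ρ complexConjugation + 1)

/-- the `c = 1` eigenspace of complex conjugation. -/
def plusPart {A : Type*} [AddCommGroup A] [Module (ZMod p) A] (ρ : Representation (ZMod p) GQ A) :
    Submodule (ZMod p) A := LinearMap.ker (ρ complexConjugation - 1)

variable (p)

/-- **(G2)**, the contract delivered by the block (consumer: block GW):
`h⁰ + h² + dim A ≤ h¹ + dim A^{c=1}` for all sufficiently large `S'`. -/
def EulerStatement : Prop :=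
  ∀ S : Finset Nat.Primes, pPrime p ∈ S →
    ∀ (A : Type) [AddCommGroup A] [Module (ZMod p) A] [Module.Finite (ZMod p) A]
      (ρ : Representation (ZMod p) GQ A), IsSmoothRep (LS S) ρ →
      ∃ S₀ : Finset Nat.Primes, S ⊆ S₀ ∧ ∀ S' : Finset Nat.Primes, S₀ ⊆ S' →
        Module.Finite (ZMod p) (H1 (LS S') ⊤ ρ) ∧ Module.Finite (ZMod p) (H2 (LS S') ⊤ ρ) ∧
        finrank (ZMod p) (H0 (LS S') ⊤ ρ) + finrank (ZMod p) (H2 (LS S') ⊤ ρ) + finrank (ZMod p) A
          ≤ finrank (ZMod p) (H1 (LS S') ⊤ ρ) + finrank (ZMod p) (plusPart ρ)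

/-- **(G1)** (producer: block GW, from `alpha_bijective` and the `Θ`-sequence):
`h²_S(ρ) + h⁰(ρ') = ∑_{ℓ ∈ S} h⁰(D_ℓ, ρ') + dim Ш¹_S(ρ')`. -/
def G1Statement : Prop :=
  ∀ S : Finset Nat.Primes, pPrime p ∈ S →
    ∀ (A : Type) [AddCommGroup A] [Module (ZMod p) A] [Module.Finite (ZMod p) A]
      (ρ : Representation (ZMod p) GQ A), IsSmoothRep (LS S) ρ →
      Module.Finite (ZMod p) (H2 (LS S) ⊤ ρ) ∧ Module.Finite (ZMod p) (Sha1 S ⊤ (dtw p ρ)) ∧
      finrank (ZMod p) (H2 (LS S) ⊤ ρ) + finrank (ZMod p) (invOf ⊤ (dtw p ρ)) =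
        ∑ ℓ ∈ S, finrank (ZMod p) (invOf (Dl ℓ) (dtw p ρ)) + finrank (ZMod p) (Sha1 S ⊤ (dtw p ρ))

/-- **(D)** the base case (producer: helper14 + helper4).  `U` a level, `U ≤ G1 p` (`E = Qbar^U ∋ μ_p`);
for all `S'` containing a suitable `S₀` (`Cl_{S'}(E) = 0`), all `V ⊇ U` with `[V : U]` prime to `p` and all
finite `ρ` trivial on `U`: `H¹_{S'}(V,ρ)` is finite, `Ш¹_{S'}(V,ρ') = 0` and
`h¹(V,ρ) + h⁰(V,ρ') = h⁰(V,ρ) + ∑_{ℓ ∈ S'} h⁰(D_ℓ, coind_V ρ') + dim (coind_V ρ)^{c=-1}`. -/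
def BaseH1Statement : Prop :=
  ∀ S : Finset Nat.Primes, pPrime p ∈ S → ∀ U ∈ LS S, U ≤ G1 p →
    ∃ S₀ : Finset Nat.Primes, S ⊆ S₀ ∧ ∀ S' : Finset Nat.Primes, S₀ ⊆ S' →
      ∀ V : Subgroup GQ, U ≤ V → ¬ p ∣ U.relIndex V →
      ∀ (Y : Type) [AddCommGroup Y] [Module (ZMod p) Y] [Module.Finite (ZMod p) Y]
        (ρ : Representation (ZMod p) GQ Y), (∀ u ∈ U, ρ u = 1) →
        Module.Finite (ZMod p) (H1 (LS S') V ρ) ∧ Subsingleton (Sha1 S' V (dtw p ρ)) ∧
        finrank (ZMod p) (H1 (LS S') V ρ) + finrank (ZMod p) (invOf V (dtw p ρ)) =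
          finrank (ZMod p) (invOf V ρ)
            + ∑ ℓ ∈ S', finrank (ZMod p) (invOf (A := X0 (LS S') V (dtw p ρ)) (Dl ℓ) (coind (LS S') V (dtw p ρ)))
            + finrank (ZMod p) (minusPart (A := X0 (LS S') V ρ) (coind (LS S') V ρ))

end Fermat.Agent.S56.G2

end
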