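/-
S56, block (G2): additive functions on finite-dimensional representations of a finite group, the finite
coinduced module, and the CONTRACT of the representation-theoretic part (R) (Artin induction).
Mathlib only.
-/
import Mathlib

set_option autoImplicit false

namespace Fermat.Agent.S56.G2

/-- An additive `ℤ`-valued function on finite-dimensional representations of `Γ` over `k`. -/
structure AddFun (k : Type) [Field k] (Γ : Type) [Group Γ] where
  toFun : ∀ (A : Type) [AddCommGroup A] [Module k A] [Module.Finite k A], Representation k Γ A → ℤ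
  additive : ∀ (A B C : Type) [AddCommGroup A] [Module k A] [Module.Finite k A]
    [AddCommGroup B] [Module k B] [Module.Finite k B] [AddCommGroup C] [Module k C] [Module.Finite k C]
    (ρA : Representation k Γ A) (ρB : Representation k Γ B) (ρC : Representation k Γ C)
    (i : A →ₗ[k] B) (q : B →ₗ[k] C), (∀ g a, i (ρA g a) = ρB g (i a)) →
    (∀ g b, q (ρB g b) = ρC g (q b)) → Function.Injective i → Function.Surjective q →
    Function.Exact i q → toFun B ρB = toFun A ρA + toFun C ρC

section Coind

variable {k : Type*} [CommRing k] {Γ : Type*} [Group Γ] {A : Type*} [AddCommGroup A] [Module k A]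

/-- The coinduced module `{f : Γ → A | f (c x) = ρ c (f x), c ∈ C}`. -/
def coindFin (C : Subgroup Γ) (ρ : Representation k Γ A) : Submodule k (Γ → A) where
  carrier := {f | ∀ c ∈ C, ∀ x, f (c * x) = ρ c (f x)}
  add_mem' := by
    intro f f' hf hf' c hc x
    simp [hf c hc x, hf' c hc x]
  zero_mem' := by intro c _ x; simp
  smul_mem' := by
    intro a f hf c hc x
    simp [hf c hc x]

/-- `Γ` acts on the coinduced module by right translation. -/
def coindFinRep (C : Subgroup Γ) (ρ : Representation k Γ A) : Representation k Γ (coindFin C ρ) where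
  toFun g :=
    { toFun := fun f => ⟨fun x => (f : Γ → A) (x * g), fun c hc x => by
        show (f : Γ → A) (c * x * g) = ρ c ((f : Γ → A) (x * g))
        rw [mul_assoc]; exact f.2 c hc (x * g)⟩
      map_add' := fun _ _ => rfl
      map_smul' := fun _ _ => rfl }
  map_one' := by ext f x; simp
  map_mul' g h := by ext f x; simp [mul_assoc]

@[simp] lemma coindFinRep_apply_coe (C : Subgroup Γ) (ρ : Representation k Γ A) (g : Γ)
    (f : coindFin C ρ) (x : Γ) : (coindFinRep C ρ g f : Γ → A) x = (f : Γ → A) (x * g) := rfl

end Coind

/-- **(R)** Artin induction for additive functions: an additive function on `F_p[Γ]`-modules which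
vanishes on all modules coinduced from cyclic subgroups of order prime to `p` vanishes. -/
def ArtinStatement (p : ℕ) [Fact p.Prime] : Prop :=
  ∀ (Γ : Type) [Group Γ] [Finite Γ] (e : AddFun (ZMod p) Γ),
    (∀ C : Subgroup Γ, IsCyclic C → ¬ p ∣ Nat.card C →
      ∀ (N : Type) [AddCommGroup N] [Module (ZMod p) N] [Module.Finite (ZMod p) N]
        (ρ : Representation (ZMod p) Γ N), e.toFun (coindFin C ρ) (coindFinRep C ρ) = 0) →
    ∀ (N : Type) [AddCommGroup N] [Module (ZMod p) N] [Module.Finite (ZMod p) N]
      (ρ : Representation (ZMod p) Γ N), e.toFun N ρ = 0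

end Fermat.Agent.S56.G2
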