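/-
S56, block (G2): linear algebra of exact sequences (alternating sums of dimensions).
-/
import Mathlib

set_option autoImplicit false

open Module

namespace Fermat.Agent.S56.G2

variable {k : Type*} [Field k]

/-- For an exact pair `f`, `g`: `dim Y = rank f + rank g`. -/
theorem finrank_eq_of_exact {X Y Z : Type*} [AddCommGroup X] [Module k X] [AddCommGroup Y] [Module k Y]
    [AddCommGroup Z] [Module k Z] [Module.Finite k Y] (f : X →ₗ[k] Y) (g : Y →ₗ[k] Z)
    (h : Function.Exact f g) :
    finrank k Y = finrank k (LinearMap.range f) + finrank k (LinearMap.range g) := by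
  rw [← LinearMap.finrank_range_add_finrank_ker g, LinearMap.exact_iff.mp h, add_comm]

/-- Alternating sum of dimensions in a nine term exact sequence
`0 → X0 → X1 → ... → X8 → 0`. -/
theorem finrank_nine {X0 X1 X2 X3 X4 X5 X6 X7 X8 : Type*}
    [AddCommGroup X0] [Module k X0] [AddCommGroup X1] [Module k X1] [AddCommGroup X2] [Module k X2]
    [AddCommGroup X3] [Module k X3] [AddCommGroup X4] [Module k X4] [AddCommGroup X5] [Module k X5]
    [AddCommGroup X6] [Module k X6] [AddCommGroup X7] [Module k X7] [AddCommGroup X8] [Module k X8]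
    [Module.Finite k X0] [Module.Finite k X1] [Module.Finite k X2] [Module.Finite k X3]
    [Module.Finite k X4] [Module.Finite k X5] [Module.Finite k X6] [Module.Finite k X7]
    [Module.Finite k X8]
    (f0 : X0 →ₗ[k] X1) (f1 : X1 →ₗ[k] X2) (f2 : X2 →ₗ[k] X3) (f3 : X3 →ₗ[k] X4) (f4 : X4 →ₗ[k] X5)
    (f5 : X5 →ₗ[k] X6) (f6 : X6 →ₗ[k] X7) (f7 : X7 →ₗ[k] X8)
    (h0 : Function.Injective f0) (e1 : Function.Exact f0 f1) (e2 : Function.Exact f1 f2)
    (e3 : Function.Exact f2 f3) (e4 : Function.Exact f3 f4) (e5 : Function.Exact f4 f5)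
    (e6 : Function.Exact f5 f6) (e7 : Function.Exact f6 f7) (h8 : Function.Surjective f7) :
    finrank k X0 + finrank k X2 + finrank k X4 + finrank k X6 + finrank k X8 =
      finrank k X1 + finrank k X3 + finrank k X5 + finrank k X7 := by
  have a0 : finrank k X0 = finrank k (LinearMap.range f0) :=
    (LinearMap.finrank_range_of_inj h0).symm
  have a8 : finrank k X8 = finrank k (LinearMap.range f7) := by
    rw [LinearMap.range_eq_top.mpr h8, finrank_top]
  have a1 := finrank_eq_of_exact f0 f1 e1
  have a2 := finrank_eq_of_exact f1 f2 e2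
  have a3 := finrank_eq_of_exact f2 f3 e3
  have a4 := finrank_eq_of_exact f3 f4 e4
  have a5 := finrank_eq_of_exact f4 f5 e5
  have a6 := finrank_eq_of_exact f5 f6 e6
  have a7 := finrank_eq_of_exact f6 f7 e7
  omega

/-- A module squeezed in an exact sequence between finite modules is finite. -/
theorem finite_of_exact {X Y Z : Type*} [AddCommGroup X] [Module k X] [AddCommGroup Y] [Module k Y]
    [AddCommGroup Z] [Module k Z] [Module.Finite k X] [Module.Finite k Z] (f : X →ₗ[k] Y)
    (g : Y →ₗ[k] Z) (h : Function.Exact f g) : Module.Finite k Y := by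
  have h2 : Module.Finite k (LinearMap.range g) := inferInstance
  have hex : Function.Exact f g.rangeRestrict := by
    intro y
    rw [← h y]
    constructor
    · intro hy
      have := congrArg Subtype.val hy
      simpa using this
    · intro hy
      exact Subtype.ext (by simpa using hy)
  exact Module.Finite.of_exact hex g.surjective_rangeRestrict

end Fermat.Agent.S56.G2
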