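/-
S56, block (G2), part (A): additivity of the Euler characteristic `h⁰ - h¹ + h²` on short exact
sequences (long exact sequence + `H³ = 0`), and of the dimension of the eigenspaces of `c`.
-/
import Fermat.Agent.S56.G2.LinAlg
import Fermat.Agent.S56.G2.Statement
import Fermat.Agent.PT.Coh.LES

set_option autoImplicit false

open Module Fermat.Agent.PT

namespace Fermat.Agent.S56.G2

section Chi

variable {k : Type*} [Field k] {G : Type*} [Group G]
variable {A B C : Type*} [AddCommGroup A] [Module k A] [AddCommGroup B] [Module k B]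
  [AddCommGroup C] [Module k C]
variable {L : LevelSystem G} {ρA : Representation k G A} {ρB : Representation k G B}
  {ρC : Representation k G C} {i : A →ₗ[k] B} {q : B →ₗ[k] C}

/-- Additivity of the Euler characteristic. -/
theorem chi_additive (S : SES L ρA ρB ρC i q) (V : Subgroup G)
    [Module.Finite k (H0 L V ρA)] [Module.Finite k (H0 L V ρB)] [Module.Finite k (H0 L V ρC)]
    [Module.Finite k (H1 L V ρA)] [Module.Finite k (H1 L V ρB)] [Module.Finite k (H1 L V ρC)]
    [Module.Finite k (H2 L V ρA)] [Module.Finite k (H2 L V ρB)] [Module.Finite k (H2 L V ρC)]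
    (h3 : Subsingleton (H3 L V ρA)) :
    finrank k (H0 L V ρA) + finrank k (H0 L V ρC) + finrank k (H1 L V ρB) + finrank k (H2 L V ρA)
        + finrank k (H2 L V ρC) =
      finrank k (H0 L V ρB) + finrank k (H1 L V ρA) + finrank k (H1 L V ρC)
        + finrank k (H2 L V ρB) := by
  have hsurj : Function.Surjective (S.pC V).H2 := by
    intro z
    exact (S.exact_pH2_δ2 V z).mp (Subsingleton.elim _ _)
  exact finrank_nine (S.iC V).H0 (S.pC V).H0 (S.δ0 V) (S.iC V).H1 (S.pC V).H1 (S.δ1 V) (S.iC V).H2
    (S.pC V).H2 (S.injective_iH0 V) (S.exact_iH0_pH0 V) (S.exact_pH0_δ0 V) (S.exact_δ0_iH1 V)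
    (S.exact_iH1_pH1 V) (S.exact_pH1_δ1 V) (S.exact_δ1_iH2 V) (S.exact_iH2_pH2 V) hsurj

end Chi

end Fermat.Agent.S56.G2
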