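/-
S56, block (G2), part (C): the Tate dual of a coinduced module is the coinduced module of the Tate dual.

Pairing: for `F' ∈ coind_V ρ'`, `F ∈ coind_V ρ`:  `B(F', F) = ∑_{x ∈ V \ G} χ(x)⁻¹ • F'(x) (F x)`
(`χ = cycloChar p`; the summand only depends on the coset `V x`; representatives of `V \ G`:
`q.rep⁻¹`, `q : CosetsIn ⊤ V`, as in `PT.finite_X0`).  `B(g F', g F) = χ(g) B(F', F)`.
Nondegenerate: test against the functions supported on one coset.
-/
import Fermat.Agent.S56.G2.Statement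
import Fermat.Agent.PT.Duality.CoindFin

set_option autoImplicit false

open ExtCitation Module Fermat.Agent.PT

noncomputable section

namespace Fermat.Agent.S56.G2

section CoindDualAbstract

variable {k : Type*} [Field k] {G : Type*} [Group G]

theorem CoindDual_isRTrans (V : Subgroup G) :
    IsRTrans V ⊤ (fun q : CosetsIn (⊤ : Subgroup G) V => q.rep⁻¹) :=
  Cores_isRTrans_of_le (isReps_rep ⊤ V) le_top

/-- right translation permutes the cosets `V \ G`. -/
theorem CoindDual_sum_mul {V : Subgroup G} [Fintype (CosetsIn (⊤ : Subgroup G) V)] {M : Type*}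
    [AddCommMonoid M] (b : G → M) (hb : ∀ v ∈ V, ∀ x, b (v * x) = b x) (g : G) :
    ∑ q : CosetsIn (⊤ : Subgroup G) V, b (q.rep⁻¹ * g) =
      ∑ q : CosetsIn (⊤ : Subgroup G) V, b q.rep⁻¹ := by
  have h := CoindDual_isRTrans V
  rw [← Equiv.sum_comp (h.perm g trivial) (fun q => b q.rep⁻¹)]
  refine Finset.sum_congr rfl fun q _ => ?_
  have e : q.rep⁻¹ * g =
      (q.rep⁻¹ * g * ((h.perm g trivial q).rep⁻¹)⁻¹) * (h.perm g trivial q).rep⁻¹ := by group
  rw [e, hb _ (h.perm_spec g trivial q)]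

variable {Z : Type*} [AddCommGroup Z] [Module k Z]

/-- a function on the cosets extends to an element of the coinduced module. -/
theorem CoindDual_exists_ext (L : LevelSystem G) {U V : Subgroup G} (hU : U ∈ L) (hUV : U ≤ V)
    (σ : Representation k G Z) (hσ : ∀ u ∈ U, σ u = 1)
    (f : CosetsIn (⊤ : Subgroup G) V → Z) :
    ∃ F : X0 L V σ, ∀ q : CosetsIn (⊤ : Subgroup G) V, (F : G → Z) q.rep⁻¹ = f q := by
  have h := CoindDual_isRTrans V
  let F : G → Z := fun x => σ (x * ((h.idx x trivial).rep⁻¹)⁻¹) (f (h.idx x trivial))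
  have hidx : ∀ v ∈ V, ∀ x, h.idx (v * x) trivial = h.idx x trivial := by
    intro v hv x
    symm
    apply h.idx_unique
    have := V.mul_mem hv (h.idx_spec x trivial)
    rwa [← mul_assoc] at this
  have heq : ∀ v ∈ V, ∀ x, F (v * x) = σ v (F x) := by
    intro v hv x
    simp only [F]
    rw [hidx v hv x, mul_assoc, map_mul]
    rfl
  refine ⟨⟨F, heq, U, hU, fun x u hu => ?_⟩, fun q => ?_⟩
  · have hn := L.normal' U hU
    have e : x * u = (x * u * x⁻¹) * x := by group
    rw [e, heq _ (hUV (hn.conj_mem u hu x)), hσ _ (hn.conj_mem u hu x)]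
    rfl
  · show F q.rep⁻¹ = f q
    have h1 : h.idx q.rep⁻¹ trivial = q :=
      (h.idx_unique _ _ q (by rw [mul_inv_cancel]; exact V.one_mem)).symm
    simp only [F]
    rw [h1, mul_inv_cancel, map_one]
    rfl

/-- an element of the coinduced module is determined by its values on the representatives. -/
theorem CoindDual_eq_zero (L : LevelSystem G) (V : Subgroup G) (σ : Representation k G Z)
    (F : X0 L V σ) (hF : ∀ q : CosetsIn (⊤ : Subgroup G) V, (F : G → Z) q.rep⁻¹ = 0) : F = 0 := by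
  ext x
  obtain ⟨q, hq, -⟩ := (isReps_rep (⊤ : Subgroup G) V).2 x⁻¹ trivial
  have hq' : x * q.rep ∈ V := by
    have := V.inv_mem hq
    simpa using this
  have h2 := F.2.1 (x * q.rep) hq' q.rep⁻¹
  rw [mul_inv_cancel_right, hF q, map_zero] at h2
  exact h2

/-- evaluation at the representatives. -/
def CoindDual_ev (L : LevelSystem G) (V : Subgroup G) (σ : Representation k G Z) :
    X0 L V σ →ₗ[k] (CosetsIn (⊤ : Subgroup G) V → Z) where
  toFun F q := (F : G → Z) q.rep⁻¹
  map_add' _ _ := rfl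
  map_smul' _ _ := rfl

theorem CoindDual_finrank (L : LevelSystem G) {U V : Subgroup G} (hU : U ∈ L) (hUV : U ≤ V)
    [Fintype (CosetsIn (⊤ : Subgroup G) V)] [Module.Finite k Z]
    (σ : Representation k G Z) (hσ : ∀ u ∈ U, σ u = 1) :
    finrank k (X0 L V σ) = Fintype.card (CosetsIn (⊤ : Subgroup G) V) * finrank k Z := by
  have hbij : Function.Bijective (CoindDual_ev L V σ) := by
    constructor
    · rw [injective_iff_map_eq_zero]
      intro F hF
      exact CoindDual_eq_zero L V σ F fun q => congrFun hF q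
    · intro f
      obtain ⟨F, hF⟩ := CoindDual_exists_ext L hU hUV σ hσ f
      exact ⟨F, funext hF⟩
  rw [(LinearEquiv.ofBijective _ hbij).finrank_eq, Module.finrank_pi_fintype]
  simp

variable {Y : Type*} [AddCommGroup Y] [Module k Y]

/-- the summand of the pairing is left `V`-invariant. -/
theorem CoindDual_invariant (L : LevelSystem G) (V : Subgroup G) (χ : G →* kˣ)
    (ρ : Representation k G Y) (F' : X0 L V (ρ.dual.twist χ)) (H : G → Y)
    (hH : ∀ v ∈ V, ∀ x, H (v * x) = ρ v (H x)) (v : G) (hv : v ∈ V) (x : G) :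
    (((χ (v * x))⁻¹ : kˣ) : k) * (F' : G → Module.Dual k Y) (v * x) (H (v * x)) =
      (((χ x)⁻¹ : kˣ) : k) * (F' : G → Module.Dual k Y) x (H x) := by
  rw [F'.2.1 v hv x, hH v hv x, Representation.twist_apply_apply, Representation.dual_apply,
    LinearMap.smul_apply, Module.Dual.transpose_apply, LinearMap.comp_apply,
    ← Module.End.mul_apply, ← map_mul, inv_mul_cancel, map_one, Module.End.one_apply, map_mul,
    mul_inv, Units.val_mul, smul_eq_mul]
  have h1 : (((χ v)⁻¹ : kˣ) : k) * (χ v : k) = 1 := Units.inv_mul _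
  linear_combination ((((χ x)⁻¹ : kˣ) : k) * (F' : G → Module.Dual k Y) x (H x)) * h1

/-- the pairing `B(F', F) = ∑_{x ∈ V \ G} χ(x)⁻¹ F'(x) (F x)`. -/
def CoindDual_pair (L : LevelSystem G) (V : Subgroup G) [Fintype (CosetsIn (⊤ : Subgroup G) V)]
    (χ : G →* kˣ) (ρ : Representation k G Y) :
    X0 L V (ρ.dual.twist χ) →ₗ[k] Module.Dual k (X0 L V ρ) :=
  LinearMap.mk₂ k (fun F' F => ∑ q : CosetsIn (⊤ : Subgroup G) V,
      (((χ q.rep⁻¹)⁻¹ : kˣ) : k) * (F' : G → Module.Dual k Y) q.rep⁻¹ ((F : G → Y) q.rep⁻¹))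
    (fun F₁ F₂ F => by
      rw [← Finset.sum_add_distrib]
      refine Finset.sum_congr rfl fun q _ => ?_
      rw [Submodule.coe_add, Pi.add_apply, LinearMap.add_apply, mul_add])
    (fun c F' F => by
      rw [Finset.smul_sum]
      refine Finset.sum_congr rfl fun q _ => ?_
      rw [Submodule.coe_smul, Pi.smul_apply, LinearMap.smul_apply, smul_eq_mul, smul_eq_mul]
      ring)
    (fun F' F₁ F₂ => by
      rw [← Finset.sum_add_distrib]
      refine Finset.sum_congr rfl fun q _ => ?_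
      rw [Submodule.coe_add, Pi.add_apply, map_add, mul_add])
    (fun c F' F => by
      rw [Finset.smul_sum]
      refine Finset.sum_congr rfl fun q _ => ?_
      rw [Submodule.coe_smul, Pi.smul_apply, map_smul, smul_eq_mul, smul_eq_mul]
      ring)

theorem CoindDual_pair_apply (L : LevelSystem G) (V : Subgroup G)
    [Fintype (CosetsIn (⊤ : Subgroup G) V)] (χ : G →* kˣ) (ρ : Representation k G Y)
    (F' : X0 L V (ρ.dual.twist χ)) (F : X0 L V ρ) :
    CoindDual_pair L V χ ρ F' F = ∑ q : CosetsIn (⊤ : Subgroup G) V,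
      (((χ q.rep⁻¹)⁻¹ : kˣ) : k) * (F' : G → Module.Dual k Y) q.rep⁻¹ ((F : G → Y) q.rep⁻¹) :=
  rfl

theorem CoindDual_pair_equivariant (L : LevelSystem G) (V : Subgroup G)
    [Fintype (CosetsIn (⊤ : Subgroup G) V)] (χ : G →* kˣ) (ρ : Representation k G Y) (g : G)
    (F' : X0 L V (ρ.dual.twist χ)) :
    CoindDual_pair L V χ ρ (coind L V (ρ.dual.twist χ) g F') =
      (coind L V ρ).dual.twist χ g (CoindDual_pair L V χ ρ F') := by
  apply LinearMap.ext
  intro F
  rw [Representation.twist_apply_apply, Representation.dual_apply, LinearMap.smul_apply,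
    Module.Dual.transpose_apply, LinearMap.comp_apply, CoindDual_pair_apply, CoindDual_pair_apply,
    smul_eq_mul, Finset.mul_sum]
  have hinv : ∀ v ∈ V, ∀ x,
      (χ g : k) * ((((χ (v * x))⁻¹ : kˣ) : k) * (F' : G → Module.Dual k Y) (v * x)
        ((coind L V ρ g⁻¹ F : G → Y) (v * x))) =
      (χ g : k) * ((((χ x)⁻¹ : kˣ) : k) * (F' : G → Module.Dual k Y) x
        ((coind L V ρ g⁻¹ F : G → Y) x)) := by
    intro v hv x
    rw [CoindDual_invariant L V χ ρ F' _ (coind L V ρ g⁻¹ F).2.1 v hv x]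
  rw [← CoindDual_sum_mul (V := V) (fun x => (χ g : k) * ((((χ x)⁻¹ : kˣ) : k) *
    (F' : G → Module.Dual k Y) x ((coind L V ρ g⁻¹ F : G → Y) x))) hinv g]
  refine Finset.sum_congr rfl fun q _ => ?_
  rw [coind_apply_coe, coind_apply_coe, mul_inv_cancel_right, map_mul, mul_inv, Units.val_mul]
  have h1 : (χ g : k) * (((χ g)⁻¹ : kˣ) : k) = 1 := Units.mul_inv _
  linear_combination (-(((χ q.rep⁻¹)⁻¹ : kˣ) : k) *
    (F' : G → Module.Dual k Y) (q.rep⁻¹ * g) ((F : G → Y) q.rep⁻¹)) * h1

theorem CoindDual_pair_injective (L : LevelSystem G) {U V : Subgroup G} (hU : U ∈ L)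
    (hUV : U ≤ V) [Fintype (CosetsIn (⊤ : Subgroup G) V)] (χ : G →* kˣ)
    (ρ : Representation k G Y) (hρ : ∀ u ∈ U, ρ u = 1) :
    Function.Injective (CoindDual_pair L V χ ρ) := by
  classical
  rw [injective_iff_map_eq_zero]
  intro F' hF'
  apply CoindDual_eq_zero
  intro q₀
  apply LinearMap.ext
  intro y
  obtain ⟨F, hF⟩ := CoindDual_exists_ext L hU hUV ρ hρ (Pi.single q₀ y)
  have h1 : CoindDual_pair L V χ ρ F' F = 0 := by rw [hF']; rfl
  rw [CoindDual_pair_apply, Finset.sum_eq_single q₀] at h1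
  · rw [hF, Pi.single_eq_same] at h1
    rcases mul_eq_zero.1 h1 with h2 | h2
    · exact absurd h2 (Units.ne_zero _)
    · exact h2
  · intro q _ hq
    rw [hF, Pi.single_eq_of_ne hq, map_zero, mul_zero]
  · intro h
    exact absurd (Finset.mem_univ _) h

end CoindDualAbstract

variable {p : ℕ} [Fact p.Prime]

theorem exists_coind_dtw_equiv (L : LevelSystem GQ) {U V : Subgroup GQ} (hU : U ∈ L) (hUV : U ≤ V)
    (hU1 : U ≤ G1 p) {Y : Type} [AddCommGroup Y] [Module (ZMod p) Y] [Module.Finite (ZMod p) Y]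
    (ρ : Representation (ZMod p) GQ Y) (hρ : ∀ u ∈ U, ρ u = 1) :
    ∃ e : X0 L V (dtw p ρ) ≃ₗ[ZMod p] Module.Dual (ZMod p) (X0 L V ρ),
      ∀ (g : GQ) (F : X0 L V (dtw p ρ)),
        e (coind L V (dtw p ρ) g F) = dtw p (coind L V ρ) g (e F) := by
  classical
  have hV : L.IsOpen V := ⟨U, hU, hUV⟩
  have hfin := finite_cosetsIn_of_isOpen hV
  let _ := Fintype.ofFinite (CosetsIn (⊤ : Subgroup GQ) V)
  have hρ' : ∀ u ∈ U, dtw p ρ u = 1 := by
    intro u hu
    have h1 : cycloChar p u = 1 := hU1 hu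
    apply LinearMap.ext
    intro φ
    rw [Representation.twist_apply_apply, h1, Units.val_one, one_smul, Representation.dual_apply,
      hρ _ (U.inv_mem hu)]
    rfl
  have hf1 : Module.Finite (ZMod p) (X0 L V ρ) := finite_X0 L V hV ρ
  have hf2 : Module.Finite (ZMod p) (X0 L V (dtw p ρ)) := finite_X0 L V hV (dtw p ρ)
  have hdim : finrank (ZMod p) (X0 L V (dtw p ρ)) =
      finrank (ZMod p) (Module.Dual (ZMod p) (X0 L V ρ)) := by
    rw [Subspace.dual_finrank_eq, CoindDual_finrank L hU hUV (dtw p ρ) hρ',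
      CoindDual_finrank L hU hUV ρ hρ, Subspace.dual_finrank_eq]
  exact ⟨LinearMap.linearEquivOfInjective (CoindDual_pair L V (cycloChar p) ρ)
    (CoindDual_pair_injective L hU hUV (cycloChar p) ρ hρ) hdim,
    fun g F => CoindDual_pair_equivariant L V (cycloChar p) ρ g F⟩

end Fermat.Agent.S56.G2

end
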