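/-
S56, block (G2), part (C): Shapiro's lemma for `Ш¹` (only the vanishing is needed).

Let `z ∈ ShaZ1 S ⊤ (coind (LS S) V σ)`.  Its Shapiro image `z' = (shapiroC ..).T1 z`
(`z' g₀ g₁ = (z g₀ g₁ : GQ → A) 1`) is in `Z1 (LS S) V σ`; if `z = d0 h` with
`h ∈ X0 Lall (⊤ ⊓ Dec 𝒜) (coind ..)` then `z' = d0 (fun g => (h g : GQ → A) 1)` and this function is in
`X0 Lall (V ⊓ Dec 𝒜) σ` (`coindEv_equivariant`).  So `z' ∈ ShaZ1 S V σ`, hence `z' ∈ B1 (LS S) V σ`
and `z ∈ B1` by the injectivity of `(shapiroC ..).H1` (`shapiro_bijective_H1`).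
-/
import Fermat.Agent.S56.G2.Statement
import Fermat.Agent.PT.Coh.Shapiro

set_option autoImplicit false

open ExtCitation Module Fermat.Agent.PT

namespace Fermat.Agent.S56.G2

variable {k : Type*} [CommRing k] {A : Type*} [AddCommGroup A] [Module k A]

theorem subsingleton_Sha1_coind (S : Finset Nat.Primes) (V : Subgroup GQ)
    (σ : Representation k GQ A) (h : Subsingleton (Sha1 S V σ)) :
    Subsingleton (Sha1 S ⊤ (coind (LS S) V σ)) := by
  rw [Submodule.Quotient.subsingleton_iff] at h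
  refine Submodule.Quotient.subsingleton_iff.2 ?_
  rw [eq_top_iff]
  rintro ⟨z, hz⟩ -
  show z ∈ B1 (LS S) ⊤ (coind (LS S) V σ)
  have hzZ : z ∈ Z1 (LS S) ⊤ (coind (LS S) V σ) := hz.1
  have hz' : (shapiroC (LS S) V σ).T1 z ∈ ShaZ1 S V σ := by
    refine ⟨(shapiroC (LS S) V σ).memZ1 hzZ, ?_⟩
    rw [SetLike.mem_coe, Submodule.mem_iInf]
    intro 𝒜
    rw [Submodule.mem_iInf]
    intro h𝒜
    have h1 : z ∈ B1 Lall (⊤ ⊓ Dec 𝒜) (coind (LS S) V σ) := by
      have h2 := hz.2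
      rw [SetLike.mem_coe, Submodule.mem_iInf] at h2
      have h3 := h2 𝒜
      rw [Submodule.mem_iInf] at h3
      exact h3 h𝒜
    have hpair : IsPair (MonoidHom.id GQ) (coindEv (LS S) V σ) Lall (⊤ ⊓ Dec 𝒜)
        (coind (LS S) V σ) Lall (V ⊓ Dec 𝒜) σ :=
      { cont := fun U hU => by rw [Subgroup.comap_id]; exact LevelSystem.isOpen_of_mem hU
        map_mem := fun v hv => ⟨trivial, hv.2⟩
        equiv := fun v hv F => coindEv_equivariant (LS S) V σ v hv.1 F }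
    exact (pairC hpair).memB1 h1
  have hB : (shapiroC (LS S) V σ).T1 z ∈ B1 (LS S) V σ := by
    have h1 : (⟨_, hz'⟩ : ShaZ1 S V σ) ∈ (B1 (LS S) V σ).submoduleOf (ShaZ1 S V σ) := by
      rw [h]; trivial
    exact h1
  have h0 : (shapiroC (LS S) V σ).H1 (H1.mk (LS S) ⊤ (coind (LS S) V σ) ⟨z, hzZ⟩) = 0 := by
    rw [CMap.H1_mk, H1.mk_eq_zero_iff]
    exact hB
  have h1 := (shapiro_bijective_H1 (LS S) V σ).1 (h0.trans (map_zero _).symm)
  exact (H1.mk_eq_zero_iff _ _ _ _).1 h1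

end Fermat.Agent.S56.G2
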