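/-
S56, block (G2), part (C): transport of cohomology, invariants and `Ш¹` along an equivariant linear
equivalence of coefficient modules.  (Use `mapC L V (fun v _ => he v)` and the same for `e.symm`;
`CMap.H1_comp`, `CMap.H1_congr`, or the structure `CIso` of `PT/Coh/ChainMap.lean`.)
-/
import Fermat.Agent.S56.G2.Statement

set_option autoImplicit false

open ExtCitation Module Fermat.Agent.PT

namespace Fermat.Agent.S56.G2

section General

variable {k : Type*} [CommRing k] {G : Type*} [Group G]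
variable {A B : Type*} [AddCommGroup A] [Module k A] [AddCommGroup B] [Module k B]
variable {ρA : Representation k G A} {ρB : Representation k G B}

theorem Transport_symm (e : A ≃ₗ[k] B) (he : ∀ g a, e (ρA g a) = ρB g (e a)) (g : G) (b : B) :
    e.symm (ρB g b) = ρA g (e.symm b) := by
  apply e.injective
  rw [he, e.apply_symm_apply, e.apply_symm_apply]

/-- the isomorphism of complexes induced by an equivariant linear equivalence. -/
def Transport_iso (e : A ≃ₗ[k] B) (he : ∀ g a, e (ρA g a) = ρB g (e a)) (L : LevelSystem G)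
    (V : Subgroup G) : CIso L V ρA L V ρB where
  hom := mapC L V (φ := e.toLinearMap) (fun v _ a => he v a)
  inv := mapC L V (φ := e.symm.toLinearMap) (fun v _ b => Transport_symm e he v b)
  inv_hom0 f _ := by
    funext g₀
    exact e.symm_apply_apply _
  inv_hom1 f _ := by
    funext g₀ g₁
    exact e.symm_apply_apply _
  inv_hom2 f _ := by
    funext g₀ g₁ g₂
    exact e.symm_apply_apply _
  inv_hom3 f _ := by
    funext g₀ g₁ g₂ g₃
    exact e.symm_apply_apply _
  hom_inv0 f _ := by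
    funext g₀
    exact e.apply_symm_apply _
  hom_inv1 f _ := by
    funext g₀ g₁
    exact e.apply_symm_apply _
  hom_inv2 f _ := by
    funext g₀ g₁ g₂
    exact e.apply_symm_apply _
  hom_inv3 f _ := by
    funext g₀ g₁ g₂ g₃
    exact e.apply_symm_apply _

theorem nonempty_equiv_H0 (e : A ≃ₗ[k] B) (he : ∀ g a, e (ρA g a) = ρB g (e a)) (L : LevelSystem G)
    (V : Subgroup G) : Nonempty (H0 L V ρA ≃ₗ[k] H0 L V ρB) :=
  ⟨(Transport_iso e he L V).H0⟩

theorem nonempty_equiv_H1 (e : A ≃ₗ[k] B) (he : ∀ g a, e (ρA g a) = ρB g (e a)) (L : LevelSystem G)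
    (V : Subgroup G) : Nonempty (H1 L V ρA ≃ₗ[k] H1 L V ρB) :=
  ⟨(Transport_iso e he L V).H1⟩

theorem nonempty_equiv_H2 (e : A ≃ₗ[k] B) (he : ∀ g a, e (ρA g a) = ρB g (e a)) (L : LevelSystem G)
    (V : Subgroup G) : Nonempty (H2 L V ρA ≃ₗ[k] H2 L V ρB) :=
  ⟨(Transport_iso e he L V).H2⟩

theorem nonempty_equiv_invOf (e : A ≃ₗ[k] B) (he : ∀ g a, e (ρA g a) = ρB g (e a))
    (D : Subgroup G) : Nonempty (invOf D ρA ≃ₗ[k] invOf D ρB) := by
  refine ⟨LinearEquiv.ofLinearMap
    (e.toLinearMap.restrict (p := invOf D ρA) (q := invOf D ρB) fun a ha v hv => ?_)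
    (e.symm.toLinearMap.restrict (p := invOf D ρB) (q := invOf D ρA) fun b hb v hv => ?_) ?_ ?_⟩
  · change ρB v (e a) = e a
    rw [← he, ha v hv]
  · change ρA v (e.symm b) = e.symm b
    rw [← Transport_symm e he, hb v hv]
  · ext b
    exact e.apply_symm_apply _
  · ext a
    exact e.symm_apply_apply _

end General

section Sha

variable {k : Type*} [CommRing k]
variable {A B : Type*} [AddCommGroup A] [Module k A] [AddCommGroup B] [Module k B]
variable {ρA : Representation k GQ A} {ρB : Representation k GQ B}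

theorem subsingleton_Sha1_congr (e : A ≃ₗ[k] B) (he : ∀ g a, e (ρA g a) = ρB g (e a))
    (S : Finset Nat.Primes) (V : Subgroup GQ) (h : Subsingleton (Sha1 S V ρA)) :
    Subsingleton (Sha1 S V ρB) := by
  rw [Submodule.Quotient.subsingleton_iff, Submodule.submoduleOf_eq_top] at h ⊢
  intro z hz
  have hz' : (Transport_iso e he (LS S) V).inv.T1 z ∈ ShaZ1 S V ρA := by
    have h2 : z ∈ ⨅ (𝒜 : Place) (_ : 𝒜.OverS S), B1 Lall (V ⊓ Dec 𝒜) ρB := hz.2
    refine Submodule.mem_inf.mpr ⟨(Transport_iso e he (LS S) V).inv.memZ1 hz.1, ?_⟩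
    simp only [Submodule.mem_iInf] at h2 ⊢
    intro 𝒜 h𝒜
    exact (Transport_iso e he Lall (V ⊓ Dec 𝒜)).inv.memB1 (h2 𝒜 h𝒜)
  have h3 := (Transport_iso e he (LS S) V).hom.memB1 (h hz')
  rwa [(Transport_iso e he (LS S) V).hom_inv1 z hz.1.1] at h3

end Sha

end Fermat.Agent.S56.G2
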