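/-
S56, block (G2): the Euler characteristic formula for the coinduced modules `coind V ρ`, `[V : U]` prime
to `p`, from the contracts (G1) and (D).
-/
import Fermat.Agent.S56.G2.Statement
import Fermat.Agent.S56.G2.Transport
import Fermat.Agent.S56.G2.CoindDual
import Fermat.Agent.S56.G2.ShaShapiro
import Fermat.Agent.PT.Coh.Shapiro

set_option autoImplicit false

open ExtCitation Module Fermat.Agent.PT

noncomputable section

namespace Fermat.Agent.S56.G2

variable {p : ℕ} [Fact p.Prime]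

/-- `h¹ - h² - h⁰ - dim (c = -1)`. -/
def eul (S : Finset Nat.Primes) {A : Type*} [AddCommGroup A] [Module (ZMod p) A]
    (ρ : Representation (ZMod p) GQ A) : ℤ :=
  (finrank (ZMod p) (H1 (LS S) ⊤ ρ) : ℤ) - finrank (ZMod p) (H2 (LS S) ⊤ ρ)
    - finrank (ZMod p) (H0 (LS S) ⊤ ρ) - finrank (ZMod p) (minusPart ρ)

/-- `dim (coind V σ)^G = dim σ^V`. -/
theorem finrank_invOf_top_coind (L : LevelSystem GQ) (V : Subgroup GQ) {A : Type*} [AddCommGroup A]
    [Module (ZMod p) A] (σ : Representation (ZMod p) GQ A) :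
    finrank (ZMod p) (invOf (A := X0 L V σ) ⊤ (coind L V σ)) = finrank (ZMod p) (invOf V σ) := by
  have e1 := (H0equiv (L := L) (V := ⊤) (ρ := coind L V σ)).symm
  have e2 := LinearEquiv.ofBijective _ (shapiro_bijective_H0 L V σ)
  have e3 := H0equiv (L := L) (V := V) (ρ := σ)
  exact ((e1.trans e2).trans e3).finrank_eq

/-- The base case of the induction. -/
theorem eul_coind_eq_zero (hG1 : G1Statement p) {S' : Finset Nat.Primes} (hpS' : pPrime p ∈ S')
    {U V : Subgroup GQ} (hU : U ∈ LS S') (hUV : U ≤ V) (hU1 : U ≤ G1 p)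
    {Y : Type} [AddCommGroup Y] [Module (ZMod p) Y] [Module.Finite (ZMod p) Y]
    (ρ : Representation (ZMod p) GQ Y) (hρ : ∀ u ∈ U, ρ u = 1)
    (hsha : Subsingleton (Sha1 S' V (dtw p ρ)))
    (hform : finrank (ZMod p) (H1 (LS S') V ρ) + finrank (ZMod p) (invOf V (dtw p ρ)) =
      finrank (ZMod p) (invOf V ρ)
        + ∑ ℓ ∈ S', finrank (ZMod p) (invOf (A := X0 (LS S') V (dtw p ρ)) (Dl ℓ) (coind (LS S') V (dtw p ρ)))
        + finrank (ZMod p) (minusPart (A := X0 (LS S') V ρ) (coind (LS S') V ρ))) :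
    eul S' (A := X0 (LS S') V ρ) (coind (LS S') V ρ) = 0 := by
  have hVo : (LS S').IsOpen V := ⟨U, hU, hUV⟩
  haveI := finite_X0 (LS S') V hVo ρ
  obtain ⟨-, -, hg1⟩ := hG1 S' hpS' (X0 (LS S') V ρ) (coind (LS S') V ρ)
    (isSmoothRep_coind (LS S') V ρ)
  obtain ⟨e, he⟩ := exists_coind_dtw_equiv (LS S') hU hUV hU1 ρ hρ
  -- transport along `e`
  have t1 : finrank (ZMod p) (invOf ⊤ (dtw p (coind (LS S') V ρ))) = finrank (ZMod p) (invOf V (dtw p ρ)) := by
    obtain ⟨f⟩ := nonempty_equiv_invOf e he ⊤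
    rw [← f.finrank_eq, finrank_invOf_top_coind]
  have t2 : ∀ ℓ : Nat.Primes, finrank (ZMod p) (invOf (Dl ℓ) (dtw p (coind (LS S') V ρ))) =
      finrank (ZMod p) (invOf (A := X0 (LS S') V (dtw p ρ)) (Dl ℓ) (coind (LS S') V (dtw p ρ))) := by
    intro ℓ
    obtain ⟨f⟩ := nonempty_equiv_invOf e he (Dl ℓ)
    exact f.finrank_eq.symm
  have t3 : finrank (ZMod p) (Sha1 S' ⊤ (dtw p (coind (LS S') V ρ))) = 0 := by
    haveI := subsingleton_Sha1_congr e he S' ⊤ (subsingleton_Sha1_coind S' V (dtw p ρ) hsha)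
    exact finrank_zero_of_subsingleton
  have s1 : finrank (ZMod p) (H1 (LS S') ⊤ (coind (LS S') V ρ)) = finrank (ZMod p) (H1 (LS S') V ρ) :=
    (LinearEquiv.ofBijective _ (shapiro_bijective_H1 (LS S') V ρ)).finrank_eq
  have s0 : finrank (ZMod p) (H0 (LS S') ⊤ (coind (LS S') V ρ)) = finrank (ZMod p) (invOf V ρ) :=
    ((LinearEquiv.ofBijective _ (shapiro_bijective_H0 (LS S') V ρ)).trans
      (H0equiv (L := LS S') (V := V) (ρ := ρ))).finrank_eq
  rw [t1, t3, Finset.sum_congr rfl (fun ℓ _ => t2 ℓ)] at hg1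
  unfold eul
  rw [s1, s0]
  omega

end Fermat.Agent.S56.G2

end
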