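/-
S56, block (G2), part (A): finiteness of `H¹(G, ρ)` from finiteness of `H¹(U, ρ)`, `U` a level acting
trivially.

Proof: `SES L ρ (coind L U ρ) Q (coindConst ..) (mkQ)` with `Q` the quotient representation
(`Representation.quotient`, as for `PT.Wrep`); `H⁰(Q)` is finite (`H0equiv`, `finite_X0`),
`H¹(G, coind L U ρ) ≃ H¹(U, ρ)` (`shapiro_bijective_H1`), and `H⁰(Q) → H¹(ρ) → H¹(coind)` is exact
(`SES.exact_δ0_iH1`); conclude by `finite_of_exact`.
-/
import Fermat.Agent.S56.G2.LinAlg
import Fermat.Agent.PT.Coh.LES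
import Fermat.Agent.PT.Coh.Shapiro
import Fermat.Agent.PT.Coh.Dict
import Fermat.Agent.PT.Duality.CoindFin

set_option autoImplicit false

open Module Fermat.Agent.PT

namespace Fermat.Agent.S56.G2

variable {k : Type*} [Field k] {G : Type*} [Group G] {A : Type*} [AddCommGroup A] [Module k A]

theorem finite_H0 (L : LevelSystem G) (V : Subgroup G) [Module.Finite k A]
    (ρ : Representation k G A) : Module.Finite k (H0 L V ρ) :=
  Module.Finite.equiv (H0equiv (L := L) (V := V) (ρ := ρ)).symm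

theorem finite_H1_top {L : LevelSystem G} {U : Subgroup G} (hU : U ∈ L) [Module.Finite k A]
    (ρ : Representation k G A) (hρ : ∀ u ∈ U, ρ u = 1) (h : Module.Finite k (H1 L U ρ)) :
    Module.Finite k (H1 L ⊤ ρ) := by
  have hsm : IsSmoothRep L ρ := fun a => ⟨U, hU, fun u hu => by rw [hρ u hu]; rfl⟩
  have hopen : L.IsOpen U := ⟨U, hU, le_rfl⟩
  have hfinX : Module.Finite k (X0 L U ρ) := finite_X0 L U hopen ρ
  have hcomap : ∀ g, LinearMap.range (coindConst L U ρ hsm) ≤
      (LinearMap.range (coindConst L U ρ hsm)).comap (coind L U ρ g) := by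
    rintro g _ ⟨a, rfl⟩
    exact ⟨ρ g a, coindConst_mem_EHom L U ρ hsm g a⟩
  have S : SES L ρ (coind L U ρ) ((coind L U ρ).quotient _ hcomap) (coindConst L U ρ hsm)
      (Submodule.mkQ _) :=
    { i_equiv := fun g a => coindConst_mem_EHom L U ρ hsm g a
      p_equiv := fun g b => rfl
      inj := coindConst_injective L U ρ hsm
      surj := Submodule.mkQ_surjective _
      exact := by
        rw [LinearMap.exact_iff, Submodule.ker_mkQ]
      smooth := isSmoothRep_coind L U ρ }
  have hfinQ : Module.Finite k (H0 L ⊤ ((coind L U ρ).quotient _ hcomap)) := finite_H0 L ⊤ _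
  have hfinC : Module.Finite k (H1 L ⊤ (coind L U ρ)) :=
    Module.Finite.of_injective (shapiroC L U ρ).H1 (shapiro_bijective_H1 L U ρ).1
  exact finite_of_exact (S.δ0 ⊤) (S.iC ⊤).H1 (S.exact_δ0_iH1 ⊤)

end Fermat.Agent.S56.G2
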