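/-
S56, block (G2): `H³_S(G_Q, ρ) = 0` for finite smooth `ρ` (from the S55 machine).
-/
import Fermat.Agent.PT.Final.Top

set_option autoImplicit false

open ExtCitation Module Fermat.Agent.PT

namespace Fermat.Agent.S56.G2

variable {p : ℕ} [Fact p.Prime]

theorem subsingleton_H3 (hp2 : p ≠ 2) (S : Finset Nat.Primes) (hpS : pPrime p ∈ S)
    {A : Type*} [AddCommGroup A] [Module (ZMod p) A] [Module.Finite (ZMod p) A]
    (ρ : Representation (ZMod p) GQ A) (hρ : IsSmoothRep (LS S) ρ) :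
    Subsingleton (H3 (LS S) ⊤ ρ) := by
  obtain ⟨lam, hbase, hrec, -⟩ := S55Contracts_all hp2 S hpS
  obtain ⟨tr, htr⟩ := exists_trace hpS lam hrec
  exact subsingleton_H3_of_base (LS S) (WQ p hpS) tr (G1 p) (isOpen_LS_G1 hpS) (G1_index p)
    (hbase tr htr) ρ hρ

end Fermat.Agent.S56.G2
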