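/-
S56, block (G2), part (C): representations of the finite quotient `G ⧸ U` versus representations of `G`
trivial on `U`; the finite coinduced module versus `PT.coind`.
-/
import Fermat.Agent.S56.G2.AddFun
import Fermat.Agent.PT.Coh.Coind

set_option autoImplicit false

open Module Fermat.Agent.PT

namespace Fermat.Agent.S56.G2

variable {k : Type*} [CommRing k] {G : Type*} [Group G] (U : Subgroup G) [U.Normal]
variable {A : Type*} [AddCommGroup A] [Module k A]

/-- inflation of a representation of `G ⧸ U` to `G`. -/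
abbrev infl (σ : Representation k (G ⧸ U) A) : Representation k G A :=
  σ.comp (QuotientGroup.mk' U)

lemma infl_apply (σ : Representation k (G ⧸ U) A) (g : G) : infl U σ g = σ (g : G ⧸ U) := rfl

lemma infl_of_mem (σ : Representation k (G ⧸ U) A) {u : G} (hu : u ∈ U) : infl U σ u = 1 := by
  rw [infl_apply, (QuotientGroup.eq_one_iff u).mpr hu, map_one]

/-- every representation trivial on `U` is inflated from `G ⧸ U`. -/
theorem exists_infl_eq (ρ : Representation k G A) (h : ∀ u ∈ U, ρ u = 1) :
    ∃ σ : Representation k (G ⧸ U) A, infl U σ = ρ :=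
  ⟨QuotientGroup.lift U ρ h, by ext g a; rfl⟩

/-- `F ↦ F ∘ π` identifies the inflation of the finite coinduced module with `PT.coind`. -/
theorem exists_coindFin_equiv {L : LevelSystem G} (hU : U ∈ L) (C : Subgroup (G ⧸ U))
    (σ : Representation k (G ⧸ U) A) :
    ∃ e : coindFin C σ ≃ₗ[k] X0 L (C.comap (QuotientGroup.mk' U)) (infl U σ),
      ∀ (g : G) (F : coindFin C σ),
        e (infl U (coindFinRep C σ) g F) = coind L (C.comap (QuotientGroup.mk' U)) (infl U σ) g (e F) := by
  let φ : coindFin C σ →ₗ[k] X0 L (C.comap (QuotientGroup.mk' U)) (infl U σ) :=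
    { toFun := fun F => ⟨fun x => (F : G ⧸ U → A) (x : G ⧸ U),
        fun v hv x => F.2 (v : G ⧸ U) hv (x : G ⧸ U),
        U, hU, fun x u hu => by
          show (F : G ⧸ U → A) ((x * u : G) : G ⧸ U) = (F : G ⧸ U → A) (x : G ⧸ U)
          rw [QuotientGroup.mk_mul_of_mem x hu]⟩
      map_add' := fun _ _ => rfl
      map_smul' := fun _ _ => rfl }
  have hφ : ∀ (F : coindFin C σ) (x : G), (φ F : G → A) x = (F : G ⧸ U → A) (x : G ⧸ U) :=
    fun _ _ => rfl
  have hinj : Function.Injective φ := by
    intro F F' h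
    apply Subtype.ext
    funext q
    obtain ⟨x, rfl⟩ := QuotientGroup.mk_surjective q
    have := congrFun (congrArg Subtype.val h) x
    exact this
  have hsurj : Function.Surjective φ := by
    intro f
    have hinv : ∀ (x u : G), u ∈ U → (f : G → A) (x * u) = (f : G → A) x := by
      intro x u hu
      have hc : x * u * x⁻¹ ∈ U := ‹U.Normal›.conj_mem u hu x
      have h1 := f.2.1 (x * u * x⁻¹) (by
        rw [Subgroup.mem_comap, QuotientGroup.mk'_apply, (QuotientGroup.eq_one_iff _).mpr hc]
        exact C.one_mem) x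
      rw [inv_mul_cancel_right, infl_of_mem U σ hc] at h1
      exact h1
    have hout : ∀ x : G, (f : G → A) ((x : G ⧸ U).out) = (f : G → A) x := by
      intro x
      obtain ⟨h, hh⟩ := QuotientGroup.mk_out_eq_mul U x
      rw [hh]
      exact hinv x h h.2
    refine ⟨⟨fun q => (f : G → A) q.out, ?_⟩, ?_⟩
    · intro c hc q
      obtain ⟨v, rfl⟩ := QuotientGroup.mk_surjective c
      obtain ⟨x, rfl⟩ := QuotientGroup.mk_surjective q
      show (f : G → A) (((v * x : G) : G ⧸ U).out) = σ (v : G ⧸ U) ((f : G → A) ((x : G ⧸ U).out))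
      rw [hout, hout]
      exact f.2.1 v hc x
    · apply Subtype.ext
      funext x
      exact hout x
  refine ⟨LinearEquiv.ofBijective φ ⟨hinj, hsurj⟩, fun g F => ?_⟩
  rfl

theorem le_comap_mk' (C : Subgroup (G ⧸ U)) : U ≤ C.comap (QuotientGroup.mk' U) := by
  intro u hu
  rw [Subgroup.mem_comap, QuotientGroup.mk'_apply, (QuotientGroup.eq_one_iff u).mpr hu]
  exact C.one_mem

theorem relIndex_comap_mk' (C : Subgroup (G ⧸ U)) :
    U.relIndex (C.comap (QuotientGroup.mk' U)) = Nat.card C := by
  have h1 : (⊥ : Subgroup (G ⧸ U)).comap (QuotientGroup.mk' U) = U := by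
    rw [MonoidHom.comap_bot, QuotientGroup.ker_mk']
  have h2 := Subgroup.relIndex_comap (⊥ : Subgroup (G ⧸ U)) (QuotientGroup.mk' U)
    (C.comap (QuotientGroup.mk' U))
  rw [h1, Subgroup.map_comap_eq_self_of_surjective (QuotientGroup.mk'_surjective U),
    Subgroup.relIndex_bot_left] at h2
  exact h2

end Fermat.Agent.S56.G2
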