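/-
S56, block (G2), part (A): the eigenspaces of complex conjugation are additive (`p` odd).
-/
import Fermat.Agent.S56.G2.Statement

set_option autoImplicit false

open ExtCitation Module Fermat.Agent.PT

namespace Fermat.Agent.S56.G2

variable {p : ℕ} [Fact p.Prime]
variable {A B C : Type*} [AddCommGroup A] [Module (ZMod p) A] [AddCommGroup B] [Module (ZMod p) B]
  [AddCommGroup C] [Module (ZMod p) C]

theorem Minus_two_ne_zero (hp2 : p ≠ 2) : (2 : ZMod p) ≠ 0 := by
  intro h
  have h1 : ((2 : ℕ) : ZMod p) = 0 := by exact_mod_cast h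
  rw [ZMod.natCast_eq_zero_iff] at h1
  exact hp2 ((Nat.prime_dvd_prime_iff_eq Fact.out Nat.prime_two).1 h1)

theorem Minus_mem_minusPart (ρ : Representation (ZMod p) GQ A) (x : A) :
    x ∈ minusPart ρ ↔ ρ complexConjugation x = -x := by
  rw [minusPart, LinearMap.mem_ker, LinearMap.add_apply, Module.End.one_apply,
    add_eq_zero_iff_eq_neg]

theorem Minus_mem_plusPart (ρ : Representation (ZMod p) GQ A) (x : A) :
    x ∈ plusPart ρ ↔ ρ complexConjugation x = x := by
  rw [plusPart, LinearMap.mem_ker, LinearMap.sub_apply, Module.End.one_apply, sub_eq_zero]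

theorem Minus_cc (ρ : Representation (ZMod p) GQ A) (x : A) :
    ρ complexConjugation (ρ complexConjugation x) = x := by
  rw [← Module.End.mul_apply, ← map_mul, complexConjugation_mul_self, map_one,
    Module.End.one_apply]

/-- the projection `b ↦ (b - c b)/2` lands in the minus part. -/
theorem Minus_proj_mem (ρ : Representation (ZMod p) GQ A) (x : A) :
    (2 : ZMod p)⁻¹ • (x - ρ complexConjugation x) ∈ minusPart ρ := by
  rw [Minus_mem_minusPart, map_smul, map_sub, Minus_cc, ← smul_neg, neg_sub]

/-- `dim A = dim A^{c=1} + dim A^{c=-1}` (`c² = 1`, `2` invertible). -/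
theorem finrank_plusPart_add_minusPart (hp2 : p ≠ 2) [Module.Finite (ZMod p) A]
    (ρ : Representation (ZMod p) GQ A) :
    finrank (ZMod p) (plusPart ρ) + finrank (ZMod p) (minusPart ρ) = finrank (ZMod p) A := by
  have h2 := Minus_two_ne_zero hp2
  have hr : LinearMap.range (ρ complexConjugation + 1) = plusPart ρ := by
    ext x
    rw [Minus_mem_plusPart, LinearMap.mem_range]
    constructor
    · rintro ⟨y, rfl⟩
      rw [LinearMap.add_apply, Module.End.one_apply, map_add, Minus_cc, add_comm]
    · intro hx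
      refine ⟨(2 : ZMod p)⁻¹ • x, ?_⟩
      rw [LinearMap.add_apply, Module.End.one_apply, map_smul, hx, ← two_smul (ZMod p), smul_smul,
        mul_inv_cancel₀ h2, one_smul]
  rw [← hr]
  exact LinearMap.finrank_range_add_finrank_ker (ρ complexConjugation + 1)

/-- the `c = -1` part is additive on short exact sequences
(exactness on the right: `b ↦ (b - c b)/2`). -/
theorem finrank_minusPart_additive (hp2 : p ≠ 2) [Module.Finite (ZMod p) B]
    (ρA : Representation (ZMod p) GQ A) (ρB : Representation (ZMod p) GQ B)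
    (ρC : Representation (ZMod p) GQ C) (i : A →ₗ[ZMod p] B) (q : B →ₗ[ZMod p] C)
    (hi : ∀ g a, i (ρA g a) = ρB g (i a)) (hq : ∀ g b, q (ρB g b) = ρC g (q b))
    (inj : Function.Injective i) (surj : Function.Surjective q) (ex : Function.Exact i q) :
    finrank (ZMod p) (minusPart ρB) = finrank (ZMod p) (minusPart ρA) + finrank (ZMod p) (minusPart ρC) := by
  have h2 := Minus_two_ne_zero hp2
  let i' : minusPart ρA →ₗ[ZMod p] minusPart ρB := i.restrict (fun a ha => by
    rw [Minus_mem_minusPart] at ha ⊢
    rw [← hi, ha, map_neg])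
  let q' : minusPart ρB →ₗ[ZMod p] minusPart ρC := q.restrict (fun b hb => by
    rw [Minus_mem_minusPart] at hb ⊢
    rw [← hq, hb, map_neg])
  have hi' : Function.Injective i' := by
    intro a a' h
    apply Subtype.ext
    apply inj
    exact congrArg Subtype.val h
  have hq' : LinearMap.range q' = ⊤ := by
    rw [LinearMap.range_eq_top]
    rintro ⟨z, hz⟩
    obtain ⟨b, rfl⟩ := surj z
    refine ⟨⟨_, Minus_proj_mem ρB b⟩, ?_⟩
    apply Subtype.ext
    show q ((2 : ZMod p)⁻¹ • (b - ρB complexConjugation b)) = q b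
    rw [Minus_mem_minusPart] at hz
    rw [map_smul, map_sub, hq, hz, sub_neg_eq_add, ← two_smul (ZMod p), smul_smul,
      inv_mul_cancel₀ h2, one_smul]
  have hker : LinearMap.ker q' = LinearMap.range i' := by
    ext ⟨b, hb⟩
    rw [LinearMap.mem_ker, LinearMap.mem_range]
    constructor
    · intro h
      have h1 : q b = 0 := congrArg Subtype.val h
      obtain ⟨a, rfl⟩ := (ex b).1 h1
      refine ⟨⟨a, ?_⟩, Subtype.ext rfl⟩
      rw [Minus_mem_minusPart] at hb ⊢
      apply inj
      rw [hi, hb, map_neg]
    · rintro ⟨a, ha⟩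
      apply Subtype.ext
      have h1 : i a = b := congrArg Subtype.val ha
      show q b = 0
      rw [← h1]
      exact (ex _).2 ⟨_, rfl⟩
  have h := LinearMap.finrank_range_add_finrank_ker q'
  rw [hq', finrank_top, hker, LinearMap.finrank_range_of_inj hi'] at h
  rw [← h, add_comm]

/-- invariance under equivariant isomorphisms. -/
theorem finrank_minusPart_congr (ρA : Representation (ZMod p) GQ A) (ρB : Representation (ZMod p) GQ B)
    (e : A ≃ₗ[ZMod p] B) (he : ∀ g a, e (ρA g a) = ρB g (e a)) :
    finrank (ZMod p) (minusPart ρA) = finrank (ZMod p) (minusPart ρB) := by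
  refine (LinearEquiv.ofSubmodules e _ _ ?_).finrank_eq
  ext b
  rw [Submodule.mem_map]
  constructor
  · rintro ⟨a, ha, rfl⟩
    rw [Minus_mem_minusPart] at ha ⊢
    show ρB complexConjugation (e a) = - e a
    rw [← he, ha, map_neg]
  · intro hb
    refine ⟨e.symm b, ?_, e.apply_symm_apply b⟩
    rw [Minus_mem_minusPart] at hb ⊢
    apply e.injective
    rw [he, map_neg, e.apply_symm_apply, hb]

end Fermat.Agent.S56.G2
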