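/-
S56, block (G2): THE EULER-POINCARE CHARACTERISTIC, assembled from the contracts
(G1) `G1Statement`, (D) `BaseH1Statement`, (R) `ArtinStatement`.
-/
import Fermat.Agent.S56.G2.Base
import Fermat.Agent.S56.G2.Additive
import Fermat.Agent.S56.G2.Minus
import Fermat.Agent.S56.G2.Inflate
import Fermat.Agent.S56.G2.FiniteH1
import Fermat.Agent.S56.G2.H3

set_option autoImplicit false

open ExtCitation Module Fermat.Agent.PT

noncomputable section

namespace Fermat.Agent.S56.G2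

variable {p : ℕ} [Fact p.Prime]

theorem isSmoothRep_of_level {L : LevelSystem GQ} {U : Subgroup GQ} (hU : U ∈ L) {A : Type*}
    [AddCommGroup A] [Module (ZMod p) A] (ρ : Representation (ZMod p) GQ A) (h : ∀ u ∈ U, ρ u = 1) :
    IsSmoothRep L ρ := fun a => ⟨U, hU, fun u hu => by rw [h u hu]; rfl⟩

/-- invariance of `eul` under equivariant isomorphisms. -/
theorem eul_congr (S : Finset Nat.Primes) {A B : Type*} [AddCommGroup A] [Module (ZMod p) A]
    [AddCommGroup B] [Module (ZMod p) B] (ρA : Representation (ZMod p) GQ A)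
    (ρB : Representation (ZMod p) GQ B) (e : A ≃ₗ[ZMod p] B) (he : ∀ g a, e (ρA g a) = ρB g (e a)) :
    eul S ρA = eul S ρB := by
  obtain ⟨f0⟩ := nonempty_equiv_H0 e he (LS S) ⊤
  obtain ⟨f1⟩ := nonempty_equiv_H1 e he (LS S) ⊤
  obtain ⟨f2⟩ := nonempty_equiv_H2 e he (LS S) ⊤
  unfold eul
  rw [f0.finrank_eq, f1.finrank_eq, f2.finrank_eq, finrank_minusPart_congr ρA ρB e he]

/-- additivity of `eul`. -/
theorem eul_additive (hp2 : p ≠ 2) (hG1 : G1Statement p) {S : Finset Nat.Primes} (hpS : pPrime p ∈ S)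
    {U : Subgroup GQ} (hU : U ∈ LS S)
    (hfin : ∀ (Y : Type) [AddCommGroup Y] [Module (ZMod p) Y] [Module.Finite (ZMod p) Y]
      (ρ : Representation (ZMod p) GQ Y), (∀ u ∈ U, ρ u = 1) → Module.Finite (ZMod p) (H1 (LS S) ⊤ ρ))
    {A B C : Type} [AddCommGroup A] [Module (ZMod p) A] [Module.Finite (ZMod p) A]
    [AddCommGroup B] [Module (ZMod p) B] [Module.Finite (ZMod p) B]
    [AddCommGroup C] [Module (ZMod p) C] [Module.Finite (ZMod p) C]
    (ρA : Representation (ZMod p) GQ A) (ρB : Representation (ZMod p) GQ B)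
    (ρC : Representation (ZMod p) GQ C) (hA : ∀ u ∈ U, ρA u = 1) (hB : ∀ u ∈ U, ρB u = 1)
    (hC : ∀ u ∈ U, ρC u = 1) (i : A →ₗ[ZMod p] B) (q : B →ₗ[ZMod p] C)
    (hi : ∀ g a, i (ρA g a) = ρB g (i a)) (hq : ∀ g b, q (ρB g b) = ρC g (q b))
    (inj : Function.Injective i) (surj : Function.Surjective q) (ex : Function.Exact i q) :
    eul S ρB = eul S ρA + eul S ρC := by
  have sA := isSmoothRep_of_level hU ρA hA
  have sB := isSmoothRep_of_level hU ρB hB
  have sC := isSmoothRep_of_level hU ρC hC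
  have hS : SES (LS S) ρA ρB ρC i q := ⟨hi, hq, inj, surj, ex, sB⟩
  haveI := finite_H0 (LS S) ⊤ ρA
  haveI := finite_H0 (LS S) ⊤ ρB
  haveI := finite_H0 (LS S) ⊤ ρC
  haveI := hfin A ρA hA
  haveI := hfin B ρB hB
  haveI := hfin C ρC hC
  haveI := (hG1 S hpS A ρA sA).1
  haveI := (hG1 S hpS B ρB sB).1
  haveI := (hG1 S hpS C ρC sC).1
  have h1 := chi_additive hS ⊤ (subsingleton_H3 hp2 S hpS ρA sA)
  have h2 := finrank_minusPart_additive hp2 ρA ρB ρC i q hi hq inj surj ex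
  unfold eul
  omega

/-- **(G2)**: the global Euler-Poincare characteristic formula (for `S'` large). -/
theorem euler (hp2 : p ≠ 2) (hG1 : G1Statement p) (hD : BaseH1Statement p) (hR : ArtinStatement p) :
    EulerStatement p := by
  intro S hpS A _ _ _ ρ hρ
  -- a level `U ≤ G1 p` acting trivially on `A`
  obtain ⟨U0, hU0, hfix0⟩ := exists_level_trivial hρ
  obtain ⟨U1, hU1, hle1⟩ := isOpen_LS_G1 (p := p) hpS
  obtain ⟨U, hU, hUU0, hUU1⟩ := (LS S).directed' U0 hU0 U1 hU1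
  have hfix : ∀ u ∈ U, ρ u = 1 := fun u hu => hfix0 u (hUU0 hu)
  have hUG1 : U ≤ G1 p := hUU1.trans hle1
  obtain ⟨S₀, hSS₀, hbase⟩ := hD S hpS U hU hUG1
  refine ⟨S₀, hSS₀, fun S' hS' => ?_⟩
  have hSS' : S ⊆ S' := hSS₀.trans hS'
  have hpS' : pPrime p ∈ S' := hSS' hpS
  have hU' : U ∈ LS S' := LS_mono hSS' hU
  haveI : U.Normal := (LS S').normal' U hU'
  haveI : U.FiniteIndex := (LS S').finiteIndex' U hU'
  have hb := hbase S' hS'
  -- finiteness of `H¹`
  have hfin : ∀ (Y : Type) [AddCommGroup Y] [Module (ZMod p) Y] [Module.Finite (ZMod p) Y]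
      (σ : Representation (ZMod p) GQ Y), (∀ u ∈ U, σ u = 1) →
      Module.Finite (ZMod p) (H1 (LS S') ⊤ σ) := by
    intro Y _ _ _ σ hσ
    refine finite_H1_top hU' σ hσ (hb U le_rfl ?_ Y σ hσ).1
    rw [Subgroup.relIndex_self]
    exact (Fact.out : p.Prime).one_lt.ne' ∘ Nat.dvd_one.mp
  -- the additive function on representations of `GQ ⧸ U`
  let e : AddFun (ZMod p) (GQ ⧸ U) :=
    { toFun := fun N _ _ _ σ => eul S' (infl U σ)
      additive := by
        intro A B C _ _ _ _ _ _ _ _ _ ρA ρB ρC i q hi hq inj surj ex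
        exact eul_additive hp2 hG1 hpS' hU' hfin (infl U ρA) (infl U ρB) (infl U ρC)
          (fun u hu => infl_of_mem U ρA hu) (fun u hu => infl_of_mem U ρB hu)
          (fun u hu => infl_of_mem U ρC hu) i q (fun g a => hi g a) (fun g b => hq g b) inj surj ex }
  have hzero := hR (GQ ⧸ U) e (by
    intro C _ hC N _ _ _ σ
    obtain ⟨f, hf⟩ := exists_coindFin_equiv U hU' C σ
    show eul S' (infl U (coindFinRep C σ)) = 0
    rw [eul_congr S' _ _ f hf]
    obtain ⟨-, hsha, hform⟩ := hb (C.comap (QuotientGroup.mk' U)) (le_comap_mk' U C)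
      (by rw [relIndex_comap_mk']; exact hC) N (infl U σ) (fun u hu => infl_of_mem U σ hu)
    exact eul_coind_eq_zero hG1 hpS' hU' (le_comap_mk' U C) hUG1 (infl U σ)
      (fun u hu => infl_of_mem U σ hu) hsha hform)
  obtain ⟨σ, hσ⟩ := exists_infl_eq U ρ hfix
  have hz : eul S' ρ = 0 := by
    have := hzero A σ
    rw [← hσ]
    exact this
  have hsm' : IsSmoothRep (LS S') ρ := isSmoothRep_of_level hU' ρ hfix
  refine ⟨hfin A ρ hfix, (hG1 S' hpS' A ρ hsm').1, ?_⟩
  have hpm := finrank_plusPart_add_minusPart hp2 ρ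
  unfold eul at hz
  omega

end Fermat.Agent.S56.G2

end
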