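/-
S56, block (G2): THE EULER-POINCARE CHARACTERISTIC, final wiring of the four contracts
(G1) `GW.g1Statement`, (D) `D.baseH1_of_units`, (U) `units`, (R) `artinStatement`.
-/
import Fermat.Agent.S56.G2.Main
import Fermat.Agent.S56.G2.D.Main
import Fermat.Agent.S56.G2.Units.Contract
import Fermat.Agent.S56.G2.Rep.Bridge
import Fermat.Agent.S56.GW.G1.Statement

set_option autoImplicit false

namespace Fermat.Agent.S56.G2

variable {p : ℕ} [Fact p.Prime]

/-- **Tate's global Euler-Poincare characteristic formula** for finite `F_p[G_{Q,S}]`-modules, `p` odd. -/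
theorem eulerStatement (hp2 : p ≠ 2) : EulerStatement p :=
  euler hp2 (GW.g1Statement hp2) (D.baseH1_of_units hp2 (units p)) (artinStatement p)

end Fermat.Agent.S56.G2
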